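/-
Programme TW (S56), brick C3-T4c (helper96): MACKEY'S FORMULA FOR THE INVARIANTS OF A COINDUCED
REPRESENTATION (Mathlib only, no finiteness of the ambient group).

`G` any group, `C H : Subgroup G`, `σ : Representation k C W`.  Mathlib's
`Representation.coind C.subtype σ` is the space `{φ : G → W | φ (c * g) = σ c (φ g)}` with `G` acting
by right translation.  For `g : G` put `stab C H g = C ⊓ g H g⁻¹` (as a subgroup of `C`).

* `DQ C H`, `dmk`, `rep` : the double coset space `C\G/H`, classes, chosen representatives;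
* `evalAt`        : `φ ↦ φ g` maps the `H`-invariants of `coind σ` to the `stab C H g`-invariants of `σ`;
* `mackeyEquiv`   : `(coind σ)^H ≃ₗ[k] Π_{q ∈ C\G/H} W^{stab C H (rep q)}`;
* `finrank_invariants_coind` : over a field, with `C\G/H` finite and `W` finite-dimensional,
  `finrank (coind σ)^H = ∑_{q ∈ C\G/H} finrank W^{stab C H (rep q)}`;
* `finite_DQ_of_finiteIndex` : `C\G/H` is finite when `C` has finite index.
-/
import Mathlib

set_option autoImplicit false

namespace Fermat.Agent.TW.TateMackey96.Core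

open Representation

noncomputable section

variable {k G W : Type*} [CommRing k] [Group G] [AddCommGroup W] [Module k W]

/-- The double coset space `C\G/H` (definitionally Mathlib's `DoubleCoset.Quotient`). -/
abbrev DQ (C H : Subgroup G) : Type _ :=
  _root_.Quotient (DoubleCoset.setoid (C : Set G) (H : Set G))

/-- The class of `x` in `C\G/H`. -/
abbrev dmk (C H : Subgroup G) (x : G) : DQ C H := Quotient.mk _ x

/-- The chosen representative of a double coset. -/
abbrev rep {C H : Subgroup G} (q : DQ C H) : G := Quotient.out q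

theorem dmk_rep {C H : Subgroup G} (q : DQ C H) : dmk C H (rep q) = q := Quotient.out_eq q

theorem dmk_eq_iff {C H : Subgroup G} {x y : G} :
    dmk C H x = dmk C H y ↔ ∃ a ∈ C, ∃ b ∈ H, y = a * x * b := by
  rw [Quotient.eq]; exact DoubleCoset.rel_iff

/-- `C ⊓ g H g⁻¹`, as a subgroup of `C`. -/
def stab (C H : Subgroup G) (g : G) : Subgroup C where
  carrier := {c | g⁻¹ * (c : G) * g ∈ H}
  one_mem' := by simp
  mul_mem' := by
    intro a b ha hb
    have e : g⁻¹ * ((a * b : C) : G) * g = (g⁻¹ * (a : G) * g) * (g⁻¹ * (b : G) * g) := by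
      rw [Subgroup.coe_mul]; group
    change g⁻¹ * ((a * b : C) : G) * g ∈ H
    rw [e]; exact H.mul_mem ha hb
  inv_mem' := by
    intro a ha
    have e : g⁻¹ * ((a⁻¹ : C) : G) * g = (g⁻¹ * (a : G) * g)⁻¹ := by
      rw [Subgroup.coe_inv]; group
    change g⁻¹ * ((a⁻¹ : C) : G) * g ∈ H
    rw [e]; exact H.inv_mem ha

theorem mem_stab {C H : Subgroup G} {g : G} {c : C} :
    c ∈ stab C H g ↔ g⁻¹ * (c : G) * g ∈ H := Iff.rfl

variable (C H : Subgroup G) (σ : Representation k C W)

/-- The `H`-invariants of the coinduced representation. -/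
abbrev coindInv : Submodule k (coindV C.subtype σ) :=
  Representation.invariants (k := k) (G := H) ((coind C.subtype σ).comp H.subtype)

/-- The invariants of `σ` under a subgroup `S` of `C`. -/
abbrev resInv (S : Subgroup C) : Submodule k W :=
  Representation.invariants (k := k) (G := S) (σ.comp S.subtype)

theorem mem_resInv {S : Subgroup C} {w : W} : w ∈ resInv C σ S ↔ ∀ c ∈ S, σ c w = w := by
  constructor
  · intro h c hc; exact h ⟨c, hc⟩
  · intro h c; exact h c.1 c.2

theorem mem_coindInv {φ : coindV C.subtype σ} :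
    φ ∈ coindInv C H σ ↔ ∀ h ∈ H, ∀ x : G, φ.1 (x * h) = φ.1 x := by
  constructor
  · intro hφ h hh x
    have := hφ ⟨h, hh⟩
    exact congrFun (congrArg Subtype.val this) x
  · intro hφ h
    apply Subtype.ext
    funext x
    exact hφ h.1 h.2 x

theorem coind_apply_mul (φ : coindV C.subtype σ) (c : C) (x : G) :
    φ.1 ((c : G) * x) = σ c (φ.1 x) := φ.2 c x

/-- Evaluation at `g` of an `H`-invariant coinduced function lands in the `C ⊓ g H g⁻¹`-invariants. -/
def evalAt (g : G) : coindInv C H σ →ₗ[k] resInv C σ (stab C H g) where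
  toFun φ := ⟨φ.1.1 g, by
    rw [mem_resInv]
    intro c hc
    have h1 : φ.1.1 ((c : G) * g) = σ c (φ.1.1 g) := coind_apply_mul C σ φ.1 c g
    have h2 : φ.1.1 (g * (g⁻¹ * (c : G) * g)) = φ.1.1 g :=
      (mem_coindInv C H σ).1 φ.2 _ hc g
    have e : g * (g⁻¹ * (c : G) * g) = (c : G) * g := by group
    rw [e] at h2
    rw [← h1, h2]⟩
  map_add' _ _ := rfl
  map_smul' _ _ := rfl

@[simp] theorem evalAt_coe (g : G) (φ : coindInv C H σ) : (evalAt C H σ g φ : W) = φ.1.1 g := rfl

/-- The Mackey map `(coind σ)^H → Π_q W^{C ⊓ g_q H g_q⁻¹}`. -/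
def mackeyMap : coindInv C H σ →ₗ[k] (∀ q : DQ C H, resInv C σ (stab C H (rep q))) :=
  LinearMap.pi fun q => evalAt C H σ (rep q)

variable {C H} in
theorem exists_decomp (x : G) : ∃ c : C, ∃ h ∈ H, x = (c : G) * rep (dmk C H x) * h := by
  have h1 : dmk C H (rep (dmk C H x)) = dmk C H x := dmk_rep _
  obtain ⟨a, ha, b, hb, e⟩ := dmk_eq_iff.1 h1
  exact ⟨⟨a, ha⟩, b, hb, e⟩

theorem mackeyMap_injective : Function.Injective (mackeyMap C H σ) := by
  intro φ ψ hφψ
  have hzero : ∀ q : DQ C H, φ.1.1 (rep q) = ψ.1.1 (rep q) := by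
    intro q
    have := congrFun hφψ q
    exact congrArg Subtype.val this
  apply Subtype.ext
  apply Subtype.ext
  funext x
  obtain ⟨c, h, hh, hx⟩ := exists_decomp (C := C) (H := H) x
  have h1 : ∀ χ : coindInv C H σ, χ.1.1 x = σ c (χ.1.1 (rep (dmk C H x))) := by
    intro χ
    have e1 : χ.1.1 (rep (dmk C H x) * h) = χ.1.1 (rep (dmk C H x)) :=
      (mem_coindInv C H σ).1 χ.2 _ hh _
    have e2 : x = (c : G) * (rep (dmk C H x) * h) := by rw [← mul_assoc]; exact hx
    rw [e2, coind_apply_mul, e1]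
    rw [← e2]
  rw [h1 φ, h1 ψ, hzero]

/-- Well-definedness: on a double coset the value is determined through the `C`-factor. -/
theorem key (q : DQ C H) (w : resInv C σ (stab C H (rep q)))
    (c₁ c₂ : C) {h₁ h₂ : G} (hh₁ : h₁ ∈ H) (hh₂ : h₂ ∈ H)
    (e : (c₁ : G) * rep q * h₁ = (c₂ : G) * rep q * h₂) : σ c₁ (w : W) = σ c₂ (w : W) := by
  have hmem : c₂⁻¹ * c₁ ∈ stab C H (rep q) := by
    rw [mem_stab]
    have : (rep q)⁻¹ * ((c₂⁻¹ * c₁ : C) : G) * rep q = h₂ * h₁⁻¹ := by
      have e' : (c₁ : G) = (c₂ : G) * rep q * h₂ * h₁⁻¹ * (rep q)⁻¹ := by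
        rw [← e]; group
      rw [Subgroup.coe_mul, Subgroup.coe_inv, e']; group
    rw [this]; exact H.mul_mem hh₂ (H.inv_mem hh₁)
  have h1 := (mem_resInv C σ).1 w.2 _ hmem
  rw [map_mul] at h1
  have h2 : σ c₂ ((σ c₂⁻¹ * σ c₁) (w : W)) = σ c₂ (w : W) := congrArg (σ c₂) h1
  rw [Module.End.mul_apply, ← Module.End.mul_apply, ← map_mul, mul_inv_cancel, map_one,
    Module.End.one_apply] at h2
  exact h2

section Surj

variable {C H σ}
variable (w : ∀ q : DQ C H, resInv C σ (stab C H (rep q)))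

/-- The function on `G` attached to a family of invariant vectors. -/
def val (x : G) : W :=
  σ (Classical.choose (exists_decomp (C := C) (H := H) x)) (w (dmk C H x) : W)

theorem val_eq (x : G) (q : DQ C H) (hq : dmk C H x = q) (c₁ : C) {h₁ : G} (hh₁ : h₁ ∈ H)
    (hx : x = (c₁ : G) * rep q * h₁) : val w x = σ c₁ (w q : W) := by
  subst hq
  obtain ⟨h, hh, hdec⟩ := Classical.choose_spec (exists_decomp (C := C) (H := H) x)
  unfold val
  exact key C H σ _ (w _) _ c₁ hh hh₁ (hdec.symm.trans hx)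

theorem dmk_mul_left (c : C) (x : G) : dmk C H ((c : G) * x) = dmk C H x := by
  symm
  rw [dmk_eq_iff]
  exact ⟨c, c.2, 1, H.one_mem, by simp⟩

theorem dmk_mul_right (x : G) {h : G} (hh : h ∈ H) : dmk C H (x * h) = dmk C H x := by
  symm
  rw [dmk_eq_iff]
  exact ⟨1, C.one_mem, h, hh, by simp⟩

theorem val_mem_coindV : val w ∈ coindV C.subtype σ := by
  intro c x
  obtain ⟨c₀, h, hh, hdec⟩ := exists_decomp (C := C) (H := H) x
  have e1 : val w x = σ c₀ (w (dmk C H x) : W) := val_eq w x _ rfl c₀ hh hdec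
  have e2 : val w ((c : G) * x) = σ (c * c₀) (w (dmk C H x) : W) := by
    refine val_eq w _ _ (dmk_mul_left c x) (c * c₀) hh ?_
    rw [Subgroup.coe_mul]
    conv_lhs => rw [hdec]
    group
  show val w ((c : G) * x) = σ c (val w x)
  rw [e1, e2, map_mul]; rfl

theorem val_mul_right (x : G) {h : G} (hh : h ∈ H) : val w (x * h) = val w x := by
  obtain ⟨c₀, h₀, hh₀, hdec⟩ := exists_decomp (C := C) (H := H) x
  have e1 : val w x = σ c₀ (w (dmk C H x) : W) := val_eq w x _ rfl c₀ hh₀ hdec
  have e2 : val w (x * h) = σ c₀ (w (dmk C H x) : W) := by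
    refine val_eq w _ _ (dmk_mul_right x hh) c₀ (H.mul_mem hh₀ hh) ?_
    conv_lhs => rw [hdec]
    group
  rw [e1, e2]

theorem val_rep (q : DQ C H) : val w (rep q) = (w q : W) := by
  have := val_eq w (rep q) q (dmk_rep q) 1 H.one_mem (by simp)
  rw [this, map_one]; rfl

end Surj

theorem mackeyMap_surjective : Function.Surjective (mackeyMap C H σ) := by
  intro w
  refine ⟨⟨⟨val w, val_mem_coindV w⟩, ?_⟩, ?_⟩
  · rw [mem_coindInv]
    intro h hh x
    exact val_mul_right w x hh
  · funext q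
    apply Subtype.ext
    exact val_rep w q

/-- **Mackey's formula for invariants**: `(coind σ)^H ≃ Π_{q ∈ C\G/H} W^{C ⊓ g_q H g_q⁻¹}`. -/
def mackeyEquiv : coindInv C H σ ≃ₗ[k] (∀ q : DQ C H, resInv C σ (stab C H (rep q))) :=
  LinearEquiv.ofBijective (mackeyMap C H σ) ⟨mackeyMap_injective C H σ, mackeyMap_surjective C H σ⟩

@[simp] theorem mackeyEquiv_apply (φ : coindInv C H σ) (q : DQ C H) :
    ((mackeyEquiv C H σ φ) q : W) = φ.1.1 (rep q) := rfl

/-- `C\G/H` is finite when `C` has finite index. -/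
theorem finite_DQ_of_finiteIndex [C.FiniteIndex] : Finite (DQ C H) := by
  have : Finite (G ⧸ C) := Subgroup.finite_quotient_of_finiteIndex
  let f : G ⧸ C → DQ C H :=
    Quotient.lift (fun g : G => dmk C H g⁻¹) (by
      intro a b hab
      have hab' : a⁻¹ * b ∈ C := QuotientGroup.leftRel_apply.mp hab
      show dmk C H a⁻¹ = dmk C H b⁻¹
      rw [dmk_eq_iff]
      refine ⟨(a⁻¹ * b)⁻¹, C.inv_mem hab', 1, H.one_mem, ?_⟩
      group)
  refine Finite.of_surjective f ?_
  intro q
  refine ⟨QuotientGroup.mk (rep q)⁻¹, ?_⟩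
  show dmk C H ((rep q)⁻¹)⁻¹ = q
  rw [inv_inv]; exact dmk_rep q

end

end Fermat.Agent.TW.TateMackey96.Core

namespace Fermat.Agent.TW.TateMackey96.Core

open Representation

variable {k G W : Type*} [Field k] [Group G] [AddCommGroup W] [Module k W]
  (C H : Subgroup G) (σ : Representation k C W)

/-- **Mackey's dimension formula.** -/
theorem finrank_invariants_coind [Fintype (DQ C H)] [Module.Finite k W] :
    Module.finrank k (coindInv C H σ) =
      ∑ q : DQ C H, Module.finrank k (resInv C σ (stab C H (rep q))) := by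
  rw [LinearEquiv.finrank_eq (mackeyEquiv C H σ), Module.finrank_pi_fintype]

/-- The `H`-invariants of the coinduced representation are finite-dimensional. -/
theorem finite_invariants_coind [Finite (DQ C H)] [Module.Finite k W] :
    Module.Finite k (coindInv C H σ) :=
  Module.Finite.equiv (mackeyEquiv C H σ).symm

end Fermat.Agent.TW.TateMackey96.Core
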