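/-
Programme TW (S56), brick C3-T4c (helper96): the ORBIT INJECTION (Mathlib only).

`D` a group acting on a set `X`, `C : Subgroup D`, `σ : Representation k C N`.
`equivFun C σ X` is the module of `C`-equivariant functions `x : X → N`
(`x (c • P) = σ c (x P)`).  If `x₀ : X` is fixed by a subgroup `D₀ ≤ D`, then
`x ↦ (d ↦ x (d • x₀))` is a linear map into the `D₀`-invariants of `coind σ`
(`Core.coindInv C D₀ σ`), injective when `D` is transitive on `X`.  Hence
`finrank (equivFun C σ X) ≤ finrank (coind σ)^{D₀}`.

Also: the invariants of `coind σ` restricted along `ψ : Γ →* D` are `coindInv C ψ.range σ`.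
-/
import Mathlib
import Fermat.Agent.TW.TateMackey96.Core

set_option autoImplicit false

namespace Fermat.Agent.TW.TateMackey96.Orbit

open Representation Fermat.Agent.TW.TateMackey96.Core

variable {k D N : Type*} [CommRing k] [Group D] [AddCommGroup N] [Module k N]
  (C : Subgroup D) (σ : Representation k C N) (X : Type*) [MulAction D X]

/-- The `C`-equivariant functions `X → N`. -/
def equivFun : Submodule k (X → N) where
  carrier := {x | ∀ (c : C) (P : X), x ((c : D) • P) = σ c (x P)}
  add_mem' := by
    intro x y hx hy c P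
    simp only [Pi.add_apply, hx c P, hy c P, map_add]
  zero_mem' := by intro c P; simp
  smul_mem' := by
    intro a x hx c P
    simp only [Pi.smul_apply, hx c P, map_smul]

theorem mem_equivFun {x : X → N} :
    x ∈ equivFun C σ X ↔ ∀ (c : C) (P : X), x ((c : D) • P) = σ c (x P) := Iff.rfl

variable {X} (D₀ : Subgroup D) (x₀ : X) (hfix : ∀ d ∈ D₀, d • x₀ = x₀)

/-- `x ↦ (d ↦ x (d • x₀))`. -/
def orbitMap : equivFun C σ X →ₗ[k] coindInv C D₀ σ where
  toFun x := ⟨⟨fun d => x.1 (d • x₀), by
      intro c d
      show x.1 (((c : D) * d) • x₀) = σ c (x.1 (d • x₀))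
      rw [mul_smul]; exact x.2 c _⟩, by
      rw [mem_coindInv]
      intro h hh d
      show x.1 ((d * h) • x₀) = x.1 (d • x₀)
      rw [mul_smul, hfix h hh]⟩
  map_add' _ _ := rfl
  map_smul' _ _ := rfl

@[simp] theorem orbitMap_apply (x : equivFun C σ X) (d : D) :
    (orbitMap C σ D₀ x₀ hfix x).1.1 d = x.1 (d • x₀) := rfl

theorem orbitMap_injective [MulAction.IsPretransitive D X] :
    Function.Injective (orbitMap C σ D₀ x₀ hfix) := by
  intro x y hxy
  apply Subtype.ext
  funext P
  obtain ⟨d, rfl⟩ := MulAction.exists_smul_eq D x₀ P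
  have := congrArg (fun φ : coindInv C D₀ σ => φ.1.1 d) hxy
  simpa using this

end Fermat.Agent.TW.TateMackey96.Orbit

namespace Fermat.Agent.TW.TateMackey96.Orbit

open Representation Fermat.Agent.TW.TateMackey96.Core

variable {k D N : Type*} [Field k] [Group D] [AddCommGroup N] [Module k N]
  (C : Subgroup D) (σ : Representation k C N) {X : Type*} [MulAction D X]
  (D₀ : Subgroup D) (x₀ : X) (hfix : ∀ d ∈ D₀, d • x₀ = x₀)

include hfix in
/-- **Easy half of Mackey via an orbit**: `dim {C-equivariant X → N} ≤ dim (coind σ)^{D₀}`. -/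
theorem finrank_equivFun_le [MulAction.IsPretransitive D X]
    [Module.Finite k (coindInv C D₀ σ)] :
    Module.finrank k (equivFun C σ X) ≤ Module.finrank k (coindInv C D₀ σ) :=
  LinearMap.finrank_le_finrank_of_injective (orbitMap_injective C σ D₀ x₀ hfix)

end Fermat.Agent.TW.TateMackey96.Orbit

namespace Fermat.Agent.TW.TateMackey96.Orbit

open Representation Fermat.Agent.TW.TateMackey96.Core

variable {k D N Γ : Type*} [CommRing k] [Group D] [Group Γ] [AddCommGroup N] [Module k N]
  (C : Subgroup D) (σ : Representation k C N) (ψ : Γ →* D)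

/-- The invariants of `coind σ` restricted along `ψ : Γ →* D` are the `ψ.range`-invariants. -/
theorem invariants_comp_eq :
    Representation.invariants (k := k) (G := Γ) ((coind C.subtype σ).comp ψ)
      = coindInv C ψ.range σ := by
  ext φ
  rw [mem_coindInv, Representation.mem_invariants]
  constructor
  · intro h d hd x
    obtain ⟨g, rfl⟩ := hd
    have := h g
    exact congrFun (congrArg Subtype.val this) x
  · intro h g
    apply Subtype.ext
    funext x
    exact h (ψ g) ⟨g, rfl⟩ x

end Fermat.Agent.TW.TateMackey96.Orbit
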