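/-
Programme TW (S56), brick C3-T4c (helper96): the LOCAL half of Mackey's formula for `H⁰`,
easy inequality (P1 of helper62's final shape).

`F ⊂ ℚ̄` finite Galois over `ℚ`, `D = Gal(F/ℚ)`, `C ≤ D`, `σ' : Representation (ZMod p) C N`,
`q` a prime number, `Pq F q` the primes of `𝓞 F` above `q`.
`primeFun F C σ' q` is the module of `C`-equivariant functions `x : Pq F q → N`
(`x P' = σ' c (x P)` whenever `P' = c • P`, i.e. `P'.asIdeal = c • P.asIdeal`).

* `centre F A hA`  : the prime of `𝓞 F` below a valuation subring `A` of `ℚ̄` over `q`;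
* `centre_fixed`   : it is fixed by the restriction to `F` of the decomposition group of `A`;
* `finrank_primeFun_le` : for `φ : Gq →* Gal(ℚ̄/ℚ)` with values in the decomposition group of `A`,
  `finrank (primeFun F C σ' q) ≤ finrank (coind σ')^{Gq}`;
* `finrank_primeFun_le_h0l` : `finrank (primeFun F C σ' q) ≤ GWIface97.h0l q (modM F C σ')`.
-/
import Mathlib
import Fermat.Agent.Lib.FrobeniusExists
import Fermat.Agent.S05.Inertia
import Fermat.Agent.TW.GWIface97
import Fermat.Agent.TW.TateShap6.Main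
import Fermat.Agent.TW.LocTW9
import Fermat.Agent.TW.TateMackey96.Orbit

set_option autoImplicit false
set_option linter.unusedSectionVars false
set_option linter.style.haveILetI false
set_option warn.classDefReducibility false

namespace Fermat.Agent.TW.TateMackey96.Places

open NumberField IsDedekindDomain
open scoped Pointwise
open Fermat.Agent.Lib.FrobeniusExists
open Fermat.Agent.TW.TateMackey96.Core Fermat.Agent.TW.TateMackey96.Orbit

noncomputable section

local instance isAlgClosureQbarTM96 : IsAlgClosure ℚ Qbar := ⟨inferInstance, inferInstance⟩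
local instance normalQbarTM96 : Normal ℚ Qbar := IsAlgClosure.normal ℚ Qbar
local instance isAlgebraicQbarTM96 : Algebra.IsAlgebraic ℚ Qbar := AlgebraicClosure.isAlgebraic ℚ

variable (F : IntermediateField ℚ Qbar) [FiniteDimensional ℚ F] [IsGalois ℚ F]

/-- `F` is a number field. -/
theorem numberFieldF : NumberField ↥F := ⟨⟩

attribute [local instance] numberFieldF

/-- The primes of `𝓞 F` above `q`. -/
def Pq (q : ℕ) : Type := {P : HeightOneSpectrum (𝓞 ↥F) // ((q : ℕ) : 𝓞 ↥F) ∈ P.asIdeal}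

/-- The action of `Gal(F/ℚ)` on the primes of `𝓞 F`. -/
def smulH (d : ↥F ≃ₐ[ℚ] ↥F) (P : HeightOneSpectrum (𝓞 ↥F)) : HeightOneSpectrum (𝓞 ↥F) where
  asIdeal := d • P.asIdeal
  isPrime := by
    rw [Ideal.pointwise_smul_eq_comap]
    exact Ideal.comap_isPrime _ _
  ne_bot := by
    intro h
    apply P.ne_bot
    have h' : d⁻¹ • (d • P.asIdeal) = d⁻¹ • (⊥ : Ideal (𝓞 ↥F)) := by rw [h]
    rw [inv_smul_smul] at h'
    rw [h', Ideal.pointwise_smul_def, Ideal.map_bot]

theorem smulH_asIdeal (d : ↥F ≃ₐ[ℚ] ↥F) (P : HeightOneSpectrum (𝓞 ↥F)) :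
    (smulH F d P).asIdeal = d • P.asIdeal := rfl

theorem natCast_mem_smul_iff (d : ↥F ≃ₐ[ℚ] ↥F) (I : Ideal (𝓞 ↥F)) (n : ℕ) :
    (n : 𝓞 ↥F) ∈ d • I ↔ (n : 𝓞 ↥F) ∈ I := by
  rw [Ideal.mem_pointwise_smul_iff_inv_smul_mem]
  have h : d⁻¹ • (n : 𝓞 ↥F) = (n : 𝓞 ↥F) :=
    map_natCast (MulSemiringAction.toRingHom (↥F ≃ₐ[ℚ] ↥F) (𝓞 ↥F) d⁻¹) n
  rw [h]

/-- The action of `Gal(F/ℚ)` on the primes above `q`. -/
def mulActionPq (q : ℕ) : MulAction (↥F ≃ₐ[ℚ] ↥F) (Pq F q) where
  smul d P := ⟨smulH F d P.1, by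
    rw [smulH_asIdeal, natCast_mem_smul_iff]; exact P.2⟩
  one_smul P := Subtype.ext (HeightOneSpectrum.ext (one_smul _ _))
  mul_smul d e P := Subtype.ext (HeightOneSpectrum.ext (mul_smul _ _ _))

theorem smul_Pq_asIdeal (q : ℕ) (d : ↥F ≃ₐ[ℚ] ↥F) (P : Pq F q) :
    (letI := mulActionPq F q; (d • P).1.asIdeal) = d • P.1.asIdeal := rfl

/-- `Gal(F/ℚ)` is a Galois group of `𝓞 F / ℤ`. -/
theorem isGaloisGroupF : IsGaloisGroup (↥F ≃ₐ[ℚ] ↥F) ℤ (𝓞 ↥F) :=
  IsGaloisGroup.of_isFractionRing (↥F ≃ₐ[ℚ] ↥F) ℤ (𝓞 ↥F) ℚ ↥F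

/-- Transitivity of `Gal(F/ℚ)` on the primes above `q`. -/
theorem isPretransitive_Pq (q : ℕ) (hq : q.Prime) :
    @MulAction.IsPretransitive (↥F ≃ₐ[ℚ] ↥F) (Pq F q) (mulActionPq F q).toSMul := by
  letI := mulActionPq F q
  haveI := isGaloisGroupF F
  refine ⟨fun P Q => ?_⟩
  have hqZ : Prime (q : ℤ) := Nat.prime_iff_prime_int.mp hq
  have hover : ∀ R : Pq F q, R.1.asIdeal.LiesOver (Ideal.span {(q : ℤ)}) := by
    intro R
    constructor
    have hle : Ideal.span {(q : ℤ)} ≤ R.1.asIdeal.under ℤ := by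
      rw [Ideal.span_singleton_le_iff_mem, Ideal.under_def, Ideal.mem_comap]
      have : algebraMap ℤ (𝓞 ↥F) (q : ℤ) = ((q : ℕ) : 𝓞 ↥F) := by simp
      rw [this]; exact R.2
    have hmax : (Ideal.span {(q : ℤ)}).IsMaximal :=
      PrincipalIdealRing.isMaximal_of_irreducible hqZ.irreducible
    have hne : R.1.asIdeal.under ℤ ≠ ⊤ := by
      have : (R.1.asIdeal.under ℤ).IsPrime := Ideal.IsPrime.under ℤ R.1.asIdeal
      exact this.ne_top
    exact hmax.eq_of_le hne hle
  haveI := hover P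
  haveI := hover Q
  haveI : P.1.asIdeal.IsPrime := P.1.isPrime
  haveI : Q.1.asIdeal.IsPrime := Q.1.isPrime
  obtain ⟨d, hd⟩ := Ideal.exists_smul_eq_of_isGaloisGroup (Ideal.span {(q : ℤ)})
    P.1.asIdeal Q.1.asIdeal (↥F ≃ₐ[ℚ] ↥F)
  exact ⟨d, Subtype.ext (HeightOneSpectrum.ext hd)⟩

/-! ### The centre of a valuation subring of `ℚ̄` -/

/-- The inclusion `𝓞 F → ℚ̄`. -/
def inclF : 𝓞 ↥F →+* Qbar := (algebraMap ↥F Qbar).comp (algebraMap (𝓞 ↥F) ↥F)

theorem inclF_isIntegral (x : 𝓞 ↥F) : IsIntegral ℤ (inclF F x) := by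
  have h : IsIntegral ℤ (algebraMap (𝓞 ↥F) ↥F x) := RingOfIntegers.isIntegral_coe x
  exact h.map (IsScalarTower.toAlgHom ℤ ↥F Qbar)

theorem inclF_mem (A : ValuationSubring Qbar) (x : 𝓞 ↥F) : inclF F x ∈ A :=
  mem_valuationSubring_of_isIntegral A (inclF_isIntegral F x)

theorem inclF_injective : Function.Injective (inclF F) :=
  (algebraMap ↥F Qbar).injective.comp RingOfIntegers.coe_injective

/-- `inclF (d • x) = g (inclF x)` when `d` is the restriction of `g`. -/
theorem inclF_smul (g : GQ) (x : 𝓞 ↥F) :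
    inclF F ((AlgEquiv.restrictNormalHom ↥F g) • x) = g (inclF F x) :=
  AlgEquiv.restrictNormal_commutes g ↥F (algebraMap (𝓞 ↥F) ↥F x)

/-- The ideal of `𝓞 F` below the maximal ideal of `A`. -/
def centreIdeal (A : ValuationSubring Qbar) : Ideal (𝓞 ↥F) where
  carrier := {x | inclF F x ∈ A.nonunits}
  add_mem' := by
    intro a b ha hb
    show inclF F (a + b) ∈ A.nonunits
    rw [map_add]
    have ha' : A.valuation (inclF F a) < 1 := ha
    have hb' : A.valuation (inclF F b) < 1 := hb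
    exact lt_of_le_of_lt (A.valuation.map_add _ _) (max_lt ha' hb')
  zero_mem' := by
    show inclF F 0 ∈ A.nonunits
    rw [map_zero]
    show A.valuation 0 < 1
    rw [map_zero]; exact zero_lt_one
  smul_mem' := by
    intro c x hx
    show inclF F (c • x) ∈ A.nonunits
    rw [smul_eq_mul, map_mul]
    have hx' : A.valuation (inclF F x) < 1 := hx
    have hc : A.valuation (inclF F c) ≤ 1 := (A.valuation_le_one_iff _).mpr (inclF_mem F A c)
    show A.valuation (inclF F c * inclF F x) < 1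
    rw [map_mul]
    exact mul_lt_one_of_nonneg_of_lt_one_right hc zero_le hx'

theorem mem_centreIdeal {A : ValuationSubring Qbar} {x : 𝓞 ↥F} :
    x ∈ centreIdeal F A ↔ A.valuation (inclF F x) < 1 := Iff.rfl

theorem centreIdeal_isPrime (A : ValuationSubring Qbar) : (centreIdeal F A).IsPrime := by
  refine ⟨?_, ?_⟩
  · intro h
    have h1 : (1 : 𝓞 ↥F) ∈ centreIdeal F A := by rw [h]; exact Submodule.mem_top
    rw [mem_centreIdeal, map_one, map_one] at h1
    exact lt_irrefl _ h1
  · intro x y hxy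
    rw [mem_centreIdeal, map_mul, map_mul] at hxy
    by_contra hcon
    push Not at hcon
    have hx : A.valuation (inclF F x) = 1 :=
      le_antisymm ((A.valuation_le_one_iff _).mpr (inclF_mem F A x))
        (not_lt.mp (fun h => hcon.1 ((mem_centreIdeal F).mpr h)))
    have hy : A.valuation (inclF F y) = 1 :=
      le_antisymm ((A.valuation_le_one_iff _).mpr (inclF_mem F A y))
        (not_lt.mp (fun h => hcon.2 ((mem_centreIdeal F).mpr h)))
    rw [hx, hy, one_mul] at hxy
    exact lt_irrefl _ hxy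

theorem natCast_mem_centreIdeal {A : ValuationSubring Qbar} {q : ℕ} (hA : A.LiesOverPrime q) :
    ((q : ℕ) : 𝓞 ↥F) ∈ centreIdeal F A := by
  show inclF F ((q : ℕ) : 𝓞 ↥F) ∈ A.nonunits
  rw [map_natCast]
  exact hA

/-- The prime of `𝓞 F` below a valuation subring `A` of `ℚ̄` over the prime number `q`. -/
def centre {A : ValuationSubring Qbar} {q : ℕ} (hq : q.Prime) (hA : A.LiesOverPrime q) : Pq F q :=
  ⟨⟨centreIdeal F A, centreIdeal_isPrime F A, by
    intro h
    have h1 := natCast_mem_centreIdeal F hA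
    rw [h, Ideal.mem_bot] at h1
    have : (q : ℕ) = 0 := by exact_mod_cast h1
    exact hq.ne_zero this⟩, natCast_mem_centreIdeal F hA⟩

/-- The centre of `A` is fixed by the restriction of the decomposition group of `A`. -/
theorem centre_fixed {A : ValuationSubring Qbar} {q : ℕ} (hq : q.Prime) (hA : A.LiesOverPrime q)
    {g : GQ} (hg : g ∈ A.decompositionSubgroup ℚ) :
    (letI := mulActionPq F q; (AlgEquiv.restrictNormalHom ↥F g) • centre F hq hA) = centre F hq hA := by
  letI := mulActionPq F q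
  apply Subtype.ext
  apply HeightOneSpectrum.ext
  show (AlgEquiv.restrictNormalHom ↥F g) • centreIdeal F A = centreIdeal F A
  ext x
  rw [Ideal.mem_pointwise_smul_iff_inv_smul_mem, mem_centreIdeal, mem_centreIdeal, ← map_inv,
    inclF_smul]
  have hg' : g⁻¹ ∈ A.decompositionSubgroup ℚ := Subgroup.inv_mem _ hg
  rw [Fermat.Agent.S05.Inertia.valuation_apply_of_mem_decomposition hg']

/-! ### The module of equivariant functions on the primes above `q` -/

variable {p : ℕ} [Fact p.Prime] (C : Subgroup (↥F ≃ₐ[ℚ] ↥F)) {N : Type} [AddCommGroup N]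
  [Module (ZMod p) N] (σ' : Representation (ZMod p) C N)

/-- The `C`-equivariant functions on the primes of `𝓞 F` above `q`
(`x (c • P) = σ' c (x P)`, the action being `(c • P).asIdeal = c • P.asIdeal`). -/
def primeFun (q : ℕ) : Submodule (ZMod p) (Pq F q → N) where
  carrier := {x | ∀ (c : C) (P P' : Pq F q),
    P'.1.asIdeal = (c : ↥F ≃ₐ[ℚ] ↥F) • P.1.asIdeal → x P' = σ' c (x P)}
  add_mem' := by
    intro x y hx hy c P P' h
    simp only [Pi.add_apply, hx c P P' h, hy c P P' h, map_add]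
  zero_mem' := by intro c P P' _; simp
  smul_mem' := by
    intro a x hx c P P' h
    simp only [Pi.smul_apply, hx c P P' h, map_smul]

theorem primeFun_eq_equivFun (q : ℕ) :
    primeFun F C σ' q = @equivFun (ZMod p) (↥F ≃ₐ[ℚ] ↥F) N _ _ _ _ C σ' (Pq F q) (mulActionPq F q) := by
  letI := mulActionPq F q
  ext x
  constructor
  · intro hx c P
    exact hx c P _ rfl
  · intro hx c P P' h
    have : P' = (c : ↥F ≃ₐ[ℚ] ↥F) • P := Subtype.ext (HeightOneSpectrum.ext h)
    rw [this]; exact hx c P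

/-- **(P1), generic form.** -/
theorem finrank_primeFun_le [Module.Finite (ZMod p) N] {A : ValuationSubring Qbar} {q : ℕ}
    (hq : q.Prime) (hA : A.LiesOverPrime q) {Gq : Type*} [Group Gq] (φ : Gq →* GQ)
    (hφ : ∀ g, φ g ∈ A.decompositionSubgroup ℚ) :
    Module.finrank (ZMod p) (primeFun F C σ' q) ≤
      Module.finrank (ZMod p) (Representation.invariants (k := ZMod p) (G := Gq)
        ((Representation.coind C.subtype σ').comp
          ((AlgEquiv.restrictNormalHom ↥F : GQ →* (↥F ≃ₐ[ℚ] ↥F)).comp φ))) := by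
  letI := mulActionPq F q
  haveI := isPretransitive_Pq F q hq
  haveI : Finite (↥F ≃ₐ[ℚ] ↥F) := inferInstance
  rw [invariants_comp_eq, primeFun_eq_equivFun]
  haveI : Module.Finite (ZMod p) (Representation.coindV C.subtype σ') := inferInstance
  refine finrank_equivFun_le C σ' _ (centre F hq hA) ?_
  rintro d ⟨g, rfl⟩
  exact centre_fixed F hq hA (hφ g)

/-- **(P1)**: `dim {C-equivariant functions on the primes of F above q} ≤ h⁰(ℚ_q, Ind_C^D σ')`. -/
theorem finrank_primeFun_le_h0l [Module.Finite (ZMod p) N] (q : Nat.Primes) :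
    Module.finrank (ZMod p) (primeFun F C σ' (q : ℕ)) ≤
      GWIface97.h0l q (Fermat.Agent.TW.TateShap6.Main.modM F C σ') := by
  have h := finrank_primeFun_le F C σ' q.2
    (Fermat.Agent.TW.LocTW9.primeLocalPlace_liesOverPrime q) (ExtCitation.primeLocalToGlobal q)
    (fun g => by
      haveI : Fact (q : ℕ).Prime := ⟨q.2⟩
      exact localGaloisToGlobal_mem_decompositionSubgroup (q : ℕ) g)
  exact h

end

end Fermat.Agent.TW.TateMackey96.Places
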